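import Mathlib

/-!
# Transport of points along an equality of Weierstrass curves
-/

set_option autoImplicit false

open WeierstrassCurve WeierstrassCurve.Affine

namespace Fermat.Agent.RedHom

variable {F : Type*} [Field F] {E E' : Affine F}

/-- transport of points along an equality of curves, as a function. -/
def pointCastFun (h : E = E') : E.Point → E'.Point
  | .zero => .zero
  | .some x y hxy => .some x y (h ▸ hxy)

theorem pointCastFun_zero (h : E = E') : pointCastFun h (0 : E.Point) = 0 := rfl

theorem pointCastFun_some (h : E = E') {x y : F} (hxy : E.Nonsingular x y) :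
    pointCastFun h (.some x y hxy) = .some x y (h ▸ hxy) := rfl

theorem pointCastFun_rfl (P : E.Point) : pointCastFun (rfl : E = E) P = P := by
  cases P <;> rfl

variable [DecidableEq F]

/-- transport of points along an equality of curves. -/
def pointCast (h : E = E') : E.Point →+ E'.Point where
  toFun := pointCastFun h
  map_zero' := rfl
  map_add' P Q := by
    subst h
    rw [pointCastFun_rfl, pointCastFun_rfl, pointCastFun_rfl]

theorem pointCast_zero (h : E = E') : pointCast h (0 : E.Point) = 0 := rfl

theorem pointCast_some (h : E = E') {x y : F} (hxy : E.Nonsingular x y) :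
    pointCast h (.some x y hxy) = .some x y (h ▸ hxy) := rfl

theorem pointCast_injective (h : E = E') : Function.Injective (pointCast h) := by
  subst h
  intro P Q hPQ
  have hP : pointCast (rfl : E = E) P = P := pointCastFun_rfl P
  have hQ : pointCast (rfl : E = E) Q = Q := pointCastFun_rfl Q
  rw [← hP, ← hQ, hPQ]

theorem pointCast_eq_zero_iff (h : E = E') (P : E.Point) : pointCast h P = 0 ↔ P = 0 := by
  constructor
  · intro h0
    exact pointCast_injective h (h0.trans (pointCast_zero h).symm)
  · rintro rfl; rfl

end Fermat.Agent.RedHom
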