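import Mathlib

/-!
# Reduction homomorphism, algebraic leaf: the two linear relations characterising the slope

For two points `(x₁, y₁)`, `(x₂, y₂)` of a Weierstrass curve over a field whose sum is not `O`, the
slope `ℓ` of the chord/tangent through them is the unique solution of

* (R1) `ℓ * (x₁ - x₂) = y₁ - y₂`,
* (R2) `ℓ * (y₁ - negY x₂ y₂) = x₁² + x₁ x₂ + x₂² + a₂ (x₁ + x₂) + a₄ - a₁ y₁`.

Both relations make sense over any commutative ring and are preserved by ring homomorphisms; this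
is what makes the reduction of the group law transparent.
-/

set_option autoImplicit false

open WeierstrassCurve WeierstrassCurve.Affine

namespace Fermat.Agent.RedHom

section Ring

variable {R : Type*} [CommRing R] (W : Affine R)

/-- the numerator of the uniform slope. -/
def slopeNum (x₁ x₂ y₁ : R) : R :=
  x₁ ^ 2 + x₁ * x₂ + x₂ ^ 2 + W.a₂ * (x₁ + x₂) + W.a₄ - W.a₁ * y₁

/-- `ℓ` is a slope of the line through `(x₁, y₁)` and `(x₂, y₂)`. -/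
def IsSlope (x₁ x₂ y₁ y₂ ℓ : R) : Prop :=
  ℓ * (x₁ - x₂) = y₁ - y₂ ∧ ℓ * (y₁ - W.negY x₂ y₂) = slopeNum W x₁ x₂ y₁

/-- the basic identity `(y₁ - y₂) (y₁ - negY x₂ y₂) = (x₁ - x₂) N`. -/
theorem sub_mul_sub_negY {x₁ x₂ y₁ y₂ : R} (h₁ : W.Equation x₁ y₁) (h₂ : W.Equation x₂ y₂) :
    (y₁ - y₂) * (y₁ - W.negY x₂ y₂) = (x₁ - x₂) * slopeNum W x₁ x₂ y₁ := by
  rw [equation_iff] at h₁ h₂
  simp only [negY, slopeNum]
  linear_combination h₁ - h₂

theorem slopeNum_self (x y : R) :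
    slopeNum W x x y = 3 * x ^ 2 + 2 * W.a₂ * x + W.a₄ - W.a₁ * y := by
  simp only [slopeNum]; ring

theorem slopeNum_self_eq_neg_polynomialX (x y : R) :
    slopeNum W x x y = - W.polynomialX.evalEval x y := by
  rw [slopeNum_self, evalEval_polynomialX]; ring

theorem sub_negY_eq_polynomialY (x y : R) :
    y - W.negY x y = W.polynomialY.evalEval x y := by
  rw [evalEval_polynomialY]; simp only [negY]; ring

variable {S : Type*} [CommRing S] (f : R →+* S)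

theorem map_slopeNum (x₁ x₂ y₁ : R) :
    slopeNum (W.map f) (f x₁) (f x₂) (f y₁) = f (slopeNum W x₁ x₂ y₁) := by
  simp only [slopeNum, WeierstrassCurve.map, map_add, map_sub, map_mul, map_pow]

theorem IsSlope.map {x₁ x₂ y₁ y₂ ℓ : R} (h : IsSlope W x₁ x₂ y₁ y₂ ℓ) :
    IsSlope (W.map f) (f x₁) (f x₂) (f y₁) (f y₂) (f ℓ) := by
  obtain ⟨r₁, r₂⟩ := h
  refine ⟨?_, ?_⟩
  · rw [← map_sub, ← map_mul, r₁, map_sub]
  · rw [map_negY, map_slopeNum, ← map_sub, ← map_mul, r₂]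

theorem IsSlope.of_map {f : R →+* S} (hf : Function.Injective f) {x₁ x₂ y₁ y₂ ℓ : R}
    (h : IsSlope (W.map f) (f x₁) (f x₂) (f y₁) (f y₂) (f ℓ)) : IsSlope W x₁ x₂ y₁ y₂ ℓ := by
  obtain ⟨r₁, r₂⟩ := h
  refine ⟨hf ?_, hf ?_⟩
  · rw [map_mul, map_sub, map_sub, r₁]
  · rw [map_mul, map_sub, ← map_negY, ← map_slopeNum, r₂]

end Ring

section Field

variable {F : Type*} [Field F] [DecidableEq F] (W : Affine F)

/-- the slope of Mathlib satisfies the two relations. -/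
theorem isSlope_slope {x₁ x₂ y₁ y₂ : F} (h₁ : W.Equation x₁ y₁) (h₂ : W.Equation x₂ y₂)
    (hxy : ¬(x₁ = x₂ ∧ y₁ = W.negY x₂ y₂)) :
    IsSlope W x₁ x₂ y₁ y₂ (W.slope x₁ x₂ y₁ y₂) := by
  by_cases hx : x₁ = x₂
  · have hy : y₁ ≠ W.negY x₂ y₂ := fun h => hxy ⟨hx, h⟩
    obtain rfl : y₁ = y₂ := Y_eq_of_Y_ne h₁ h₂ hx hy
    subst hx
    rw [slope_of_Y_ne rfl hy]
    have hne : y₁ - W.negY x₁ y₁ ≠ 0 := sub_ne_zero.mpr hy
    refine ⟨by simp, ?_⟩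
    rw [div_mul_cancel₀ _ hne, slopeNum_self]
  · rw [slope_of_X_ne hx]
    have hne : x₁ - x₂ ≠ 0 := sub_ne_zero.mpr hx
    refine ⟨div_mul_cancel₀ _ hne, ?_⟩
    rw [div_mul_eq_mul_div, sub_mul_sub_negY W h₁ h₂, mul_comm, mul_div_assoc, div_self hne,
      mul_one]

/-- the two relations determine the slope. -/
theorem IsSlope.eq_slope {x₁ x₂ y₁ y₂ ℓ : F} (h : IsSlope W x₁ x₂ y₁ y₂ ℓ)
    (h₁ : W.Equation x₁ y₁) (h₂ : W.Equation x₂ y₂)
    (hxy : ¬(x₁ = x₂ ∧ y₁ = W.negY x₂ y₂)) : ℓ = W.slope x₁ x₂ y₁ y₂ := by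
  obtain ⟨r₁, r₂⟩ := h
  by_cases hx : x₁ = x₂
  · have hy : y₁ ≠ W.negY x₂ y₂ := fun h => hxy ⟨hx, h⟩
    obtain rfl : y₁ = y₂ := Y_eq_of_Y_ne h₁ h₂ hx hy
    subst hx
    rw [slope_of_Y_ne rfl hy]
    have hne : y₁ - W.negY x₁ y₁ ≠ 0 := sub_ne_zero.mpr hy
    rw [eq_div_iff hne, r₂, slopeNum_self]
  · rw [slope_of_X_ne hx]
    have hne : x₁ - x₂ ≠ 0 := sub_ne_zero.mpr hx
    rw [eq_div_iff hne, r₁]

end Field

end Fermat.Agent.RedHom
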