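import Mathlib
import Fermat.Agent.S05.Kernel
import Fermat.Agent.RedHom.SlopeRel

/-!
# The reduction map of a Weierstrass curve with good reduction over a valuation ring

`K` a field, `A : ValuationSubring K`, `κ` its residue field, `W` a Weierstrass curve over `A`
whose reduction `W.map (residue A)` has nonzero discriminant.  We define the reduction map

  `red : (W.map (algebraMap A K)).Point → (W.map (residue A)).Point`

(`O` and the points with non-integral `x`-coordinate go to `O`, integral points are reduced
coordinatewise) and prove the three local facts about sums of integral points: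

* `red_add_of_ne` : if the reductions of two integral points do not add up to `O`, their sum is
  integral and reduces to the sum of the reductions;
* `inE1_add_of_eq` : if the reductions add up to `O`, the sum lies in the kernel of reduction.
-/

set_option autoImplicit false

open WeierstrassCurve WeierstrassCurve.Affine

namespace Fermat.Agent.RedHom

open Fermat.Agent.S05.Kernel

variable {K : Type*} [Field K] (A : ValuationSubring K) (W : WeierstrassCurve A)

/-- the generic fibre. -/
abbrev genFib : Affine K := W.map (algebraMap A K)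

/-- the special fibre. -/
abbrev spFib : Affine (IsLocalRing.ResidueField A) := W.map (IsLocalRing.residue A)

theorem integralCoeffs_genFib : IntegralCoeffs A.valuation (genFib A W) :=
  ⟨A.valuation_le_one W.a₁, A.valuation_le_one W.a₂, A.valuation_le_one W.a₃,
    A.valuation_le_one W.a₄, A.valuation_le_one W.a₆⟩

variable {A W}

/-- the `y`-coordinate of a point with integral `x`-coordinate is integral. -/
theorem y_mem_of_x_mem {x y : K} (h : (genFib A W).Equation x y) (hx : x ∈ A) : y ∈ A := by
  rw [← A.valuation_le_one_iff] at hx ⊢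
  by_contra hy
  exact absurd hx (not_le.mpr (vx_of_vy (integralCoeffs_genFib A W) h (not_le.mp hy)))

/-- the equation descends to `A`. -/
theorem equation_of_genFib {a b : A} (h : (genFib A W).Equation (a : K) (b : K)) :
    W.toAffine.Equation a b :=
  (map_equation W.toAffine (f := algebraMap A K) Subtype.val_injective a b).mp h

/-- the equation passes to the special fibre. -/
theorem equation_spFib {a b : A} (h : (genFib A W).Equation (a : K) (b : K)) :
    (spFib A W).Equation (IsLocalRing.residue A a) (IsLocalRing.residue A b) :=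
  (equation_of_genFib h).map (IsLocalRing.residue A)

/-- nonsingularity on the special fibre from good reduction. -/
theorem nonsingular_spFib (hΔ : (spFib A W).Δ ≠ 0) {a b : A}
    (h : (genFib A W).Equation (a : K) (b : K)) :
    (spFib A W).Nonsingular (IsLocalRing.residue A a) (IsLocalRing.residue A b) :=
  (equation_iff_nonsingular_of_Δ_ne_zero hΔ).mp (equation_spFib h)

local notation "res" => IsLocalRing.residue A

theorem res_eq_zero_iff (a : A) : res a = 0 ↔ A.valuation (a : K) < 1 := by
  rw [IsLocalRing.residue_eq_zero_iff, A.valuation_lt_one_iff]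

theorem res_ne_zero_iff (a : A) : res a ≠ 0 ↔ A.valuation (a : K) = 1 := by
  rw [Ne, res_eq_zero_iff, not_lt]
  exact ⟨fun h => le_antisymm (A.valuation_le_one a) h, fun h => h.ge⟩

/-! ### coercion forms of the compatibility of the formulas with the two ring homomorphisms -/

theorem coe_negY (a b : A) :
    ((W.toAffine.negY a b : A) : K) = (genFib A W).negY (a : K) (b : K) :=
  (map_negY (W' := W.toAffine) (algebraMap A K) a b).symm

theorem res_negY (a b : A) :
    res (W.toAffine.negY a b) = (spFib A W).negY (res a) (res b) :=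
  (map_negY (W' := W.toAffine) (IsLocalRing.residue A) a b).symm

theorem coe_slopeNum (a₁ a₂ b₁ : A) :
    ((slopeNum W.toAffine a₁ a₂ b₁ : A) : K) = slopeNum (genFib A W) (a₁ : K) (a₂ : K) (b₁ : K) :=
  (map_slopeNum W.toAffine (algebraMap A K) a₁ a₂ b₁).symm

theorem res_slopeNum (a₁ a₂ b₁ : A) :
    res (slopeNum W.toAffine a₁ a₂ b₁) = slopeNum (spFib A W) (res a₁) (res a₂) (res b₁) :=
  (map_slopeNum W.toAffine (IsLocalRing.residue A) a₁ a₂ b₁).symm

theorem coe_addX (a₁ a₂ l : A) :
    ((W.toAffine.addX a₁ a₂ l : A) : K) = (genFib A W).addX (a₁ : K) (a₂ : K) (l : K) :=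
  (map_addX (W' := W.toAffine) (algebraMap A K) a₁ a₂ l).symm

theorem res_addX (a₁ a₂ l : A) :
    res (W.toAffine.addX a₁ a₂ l) = (spFib A W).addX (res a₁) (res a₂) (res l) :=
  (map_addX (W' := W.toAffine) (IsLocalRing.residue A) a₁ a₂ l).symm

theorem coe_addY (a₁ a₂ b₁ l : A) :
    ((W.toAffine.addY a₁ a₂ b₁ l : A) : K) =
      (genFib A W).addY (a₁ : K) (a₂ : K) (b₁ : K) (l : K) :=
  (map_addY (W' := W.toAffine) (algebraMap A K) a₁ b₁ a₂ l).symm

theorem res_addY (a₁ a₂ b₁ l : A) :
    res (W.toAffine.addY a₁ a₂ b₁ l) = (spFib A W).addY (res a₁) (res a₂) (res b₁) (res l) :=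
  (map_addY (W' := W.toAffine) (IsLocalRing.residue A) a₁ b₁ a₂ l).symm

/-- if the reductions do not add up to `O`, neither do the points. -/
theorem not_add_zero_of_res {a₁ b₁ a₂ b₂ : A}
    (hred : ¬(res a₁ = res a₂ ∧ res b₁ = (spFib A W).negY (res a₂) (res b₂))) :
    ¬((a₁ : K) = a₂ ∧ (b₁ : K) = (genFib A W).negY a₂ b₂) := by
  rintro ⟨hx, hy⟩
  apply hred
  have hx' : a₁ = a₂ := Subtype.ext hx
  have hy' : b₁ = W.toAffine.negY a₂ b₂ := by
    apply Subtype.ext
    rw [hy, coe_negY]
  refine ⟨by rw [hx'], ?_⟩
  rw [hy', res_negY]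

section Slope

variable [DecidableEq K] [DecidableEq (IsLocalRing.ResidueField A)]

/-- the slope is integral when the reductions do not add up to `O`, and it reduces to the slope
of the reductions. -/
theorem exists_slope_of_res {a₁ b₁ a₂ b₂ : A}
    (h₁ : (genFib A W).Equation (a₁ : K) (b₁ : K)) (h₂ : (genFib A W).Equation (a₂ : K) (b₂ : K))
    (hred : ¬(res a₁ = res a₂ ∧ res b₁ = (spFib A W).negY (res a₂) (res b₂))) :
    ∃ l : A, (l : K) = (genFib A W).slope a₁ a₂ b₁ b₂ ∧
      res l = (spFib A W).slope (res a₁) (res a₂) (res b₁) (res b₂) := by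
  have hxy := not_add_zero_of_res hred
  have hS := isSlope_slope (genFib A W) h₁ h₂ hxy
  set ℓ : K := (genFib A W).slope a₁ a₂ b₁ b₂ with hℓ
  -- `ℓ` is integral
  have hmem : ℓ ∈ A := by
    rw [← A.valuation_le_one_iff]
    obtain ⟨r₁, r₂⟩ := hS
    by_cases hx : res a₁ = res a₂
    · have hy : res b₁ ≠ (spFib A W).negY (res a₂) (res b₂) := fun h => hred ⟨hx, h⟩
      have hu : A.valuation ((b₁ : K) - (genFib A W).negY a₂ b₂) = 1 := by
        have e : ((b₁ - W.toAffine.negY a₂ b₂ : A) : K) = (b₁ : K) - (genFib A W).negY a₂ b₂ := by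
          rw [← coe_negY]; rfl
        rw [← e, ← res_ne_zero_iff, map_sub, sub_ne_zero, res_negY]
        exact hy
      have hN : A.valuation (slopeNum (genFib A W) a₁ a₂ b₁) ≤ 1 := by
        rw [← coe_slopeNum]
        exact A.valuation_le_one _
      have := congrArg A.valuation r₂
      rw [map_mul, hu, mul_one] at this
      rw [this]; exact hN
    · have hu : A.valuation ((a₁ : K) - a₂) = 1 := by
        have e : ((a₁ - a₂ : A) : K) = (a₁ : K) - a₂ := rfl
        rw [← e, ← res_ne_zero_iff, map_sub, sub_ne_zero]
        exact hx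
      have hN : A.valuation ((b₁ : K) - b₂) ≤ 1 := A.valuation_le_one (b₁ - b₂)
      have := congrArg A.valuation r₁
      rw [map_mul, hu, mul_one] at this
      rw [this]; exact hN
  refine ⟨⟨ℓ, hmem⟩, rfl, ?_⟩
  have hS' : IsSlope W.toAffine a₁ a₂ b₁ b₂ ⟨ℓ, hmem⟩ :=
    IsSlope.of_map W.toAffine (f := algebraMap A K) Subtype.val_injective hS
  exact (hS'.map W.toAffine (IsLocalRing.residue A)).eq_slope (spFib A W)
    (equation_spFib h₁) (equation_spFib h₂) hred

end Slope

end Fermat.Agent.RedHom
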