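import Mathlib
import Fermat.Agent.RedHom.RedMap

/-!
# The reduction homomorphism of a Weierstrass curve with good reduction

`red hΔ : (W.map (algebraMap A K)).Point →+ (W.map (residue A)).Point` for a Weierstrass curve `W`
over a valuation subring `A` of a field `K` whose special fibre has `Δ ≠ 0`; its kernel is the
subgroup `S05.Kernel.E1` of points with non-integral `x`-coordinate.
-/

set_option autoImplicit false

open WeierstrassCurve WeierstrassCurve.Affine

namespace Fermat.Agent.RedHom

open Fermat.Agent.S05.Kernel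

variable {K : Type*} [Field K] {A : ValuationSubring K} {W : WeierstrassCurve A}

local notation "res" => IsLocalRing.residue A

open Classical in
/-- the reduction map, as a function. -/
noncomputable def redFun (hΔ : (spFib A W).Δ ≠ 0) : (genFib A W).Point → (spFib A W).Point
  | .zero => 0
  | .some x y h =>
    if hx : x ∈ A then
      .some (res ⟨x, hx⟩) (res ⟨y, y_mem_of_x_mem h.1 hx⟩)
        (nonsingular_spFib hΔ (a := ⟨x, hx⟩) (b := ⟨y, y_mem_of_x_mem h.1 hx⟩) h.1)
    else 0

variable (hΔ : (spFib A W).Δ ≠ 0)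

theorem redFun_zero : redFun hΔ 0 = 0 := rfl

theorem redFun_some_of_mem {a b : A} (h : (genFib A W).Nonsingular (a : K) (b : K)) :
    redFun hΔ (.some _ _ h) = .some (res a) (res b) (nonsingular_spFib hΔ h.1) := by
  have ha : (a : K) ∈ A := a.2
  simp only [redFun, dif_pos ha]

theorem redFun_some_of_notMem {x y : K} (h : (genFib A W).Nonsingular x y) (hx : x ∉ A) :
    redFun hΔ (.some _ _ h) = 0 := by
  simp only [redFun, dif_neg hx]

/-- every point is in the kernel of reduction or has integral coordinates. -/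
theorem inE1_or_integral (P : (genFib A W).Point) :
    InE1 A.valuation P ∨
      ∃ (a b : A) (h : (genFib A W).Nonsingular (a : K) (b : K)), P = .some _ _ h := by
  rcases P with _ | ⟨x, y, h⟩
  · exact Or.inl (inE1_zero _)
  · by_cases hx : x ∈ A
    · exact Or.inr ⟨⟨x, hx⟩, ⟨y, y_mem_of_x_mem h.1 hx⟩, h, rfl⟩
    · refine Or.inl ((inE1_some _ h).mpr ?_)
      rw [← not_le, A.valuation_le_one_iff]
      exact hx

theorem not_inE1_some {a b : A} (h : (genFib A W).Nonsingular (a : K) (b : K)) :
    ¬ InE1 A.valuation (Point.some _ _ h) := by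
  rw [inE1_some, not_lt]
  exact A.valuation_le_one a

/-- the kernel of the reduction map. -/
theorem redFun_eq_zero_iff (P : (genFib A W).Point) :
    redFun hΔ P = 0 ↔ InE1 A.valuation P := by
  rcases inE1_or_integral P with hP | ⟨a, b, h, rfl⟩
  · refine ⟨fun _ => hP, fun _ => ?_⟩
    rcases hP with rfl | ⟨x, y, h, rfl, hx⟩
    · rfl
    · apply redFun_some_of_notMem
      rw [← A.valuation_le_one_iff, not_le]
      exact hx
  · rw [redFun_some_of_mem]
    exact ⟨fun h0 => absurd h0 (Point.some_ne_zero _), fun h1 => absurd h1 (not_inE1_some h)⟩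

theorem redFun_neg (P : (genFib A W).Point) : redFun hΔ (-P) = - redFun hΔ P := by
  rcases inE1_or_integral P with hP | ⟨a, b, h, rfl⟩
  · rw [(redFun_eq_zero_iff hΔ P).mpr hP, (redFun_eq_zero_iff hΔ (-P)).mpr hP.neg, Point.neg_zero]
  · rw [redFun_some_of_mem, Point.neg_some, Point.neg_some]
    have e : (genFib A W).negY (a : K) (b : K) = ((W.toAffine.negY a b : A) : K) :=
      (coe_negY a b).symm
    have h' : (genFib A W).Nonsingular (a : K) ((W.toAffine.negY a b : A) : K) := by
      rw [← e]; exact (nonsingular_neg ..).mpr h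
    have e2 : Point.some _ _ ((nonsingular_neg ..).mpr h) = Point.some _ _ h' := by
      simp only [Point.some.injEq, true_and]; exact e
    rw [e2, redFun_some_of_mem]
    simp only [Point.some.injEq, true_and]
    exact res_negY a b

theorem redFun_some_eq {x y : K} (h : (genFib A W).Nonsingular x y) {a b : A}
    (hx : x = a) (hy : y = b) :
    redFun hΔ (.some x y h) =
      .some (res a) (res b) (nonsingular_spFib hΔ (by rw [← hx, ← hy]; exact h.1)) := by
  subst hx hy
  exact redFun_some_of_mem hΔ h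

section Add

variable [DecidableEq K] [DecidableEq (IsLocalRing.ResidueField A)]

/-- **Claim 2**: if the reductions of two integral points do not add up to `O`, the reduction of
the sum is the sum of the reductions. -/
theorem redFun_add_of_ne {a₁ b₁ a₂ b₂ : A} (h₁ : (genFib A W).Nonsingular (a₁ : K) (b₁ : K))
    (h₂ : (genFib A W).Nonsingular (a₂ : K) (b₂ : K))
    (hred : ¬(res a₁ = res a₂ ∧ res b₁ = (spFib A W).negY (res a₂) (res b₂))) :
    redFun hΔ (Point.some _ _ h₁ + Point.some _ _ h₂) =
      redFun hΔ (Point.some _ _ h₁) + redFun hΔ (Point.some _ _ h₂) := by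
  have hxy := not_add_zero_of_res hred
  obtain ⟨l, hl, hl'⟩ := exists_slope_of_res h₁.1 h₂.1 hred
  rw [Point.add_some hxy, redFun_some_of_mem, redFun_some_of_mem, Point.add_some hred]
  rw [redFun_some_eq hΔ _ (a := W.toAffine.addX a₁ a₂ l) (b := W.toAffine.addY a₁ a₂ b₁ l)
    (by rw [coe_addX, hl]) (by rw [coe_addY, hl])]
  simp only [Point.some.injEq]
  exact ⟨by rw [res_addX, hl'], by rw [res_addY, hl']⟩

omit [DecidableEq (IsLocalRing.ResidueField A)] in
include hΔ in
/-- **Claim 3**: if the reductions of two integral points add up to `O`, the sum lies in the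
kernel of reduction. -/
theorem inE1_add_of_eq {a₁ b₁ a₂ b₂ : A} (h₁ : (genFib A W).Nonsingular (a₁ : K) (b₁ : K))
    (h₂ : (genFib A W).Nonsingular (a₂ : K) (b₂ : K))
    (hred : res a₁ = res a₂ ∧ res b₁ = (spFib A W).negY (res a₂) (res b₂)) :
    InE1 A.valuation (Point.some _ _ h₁ + Point.some _ _ h₂) := by
  by_cases hxy : (a₁ : K) = a₂ ∧ (b₁ : K) = (genFib A W).negY a₂ b₂
  · rw [Point.add_of_Y_eq hxy.1 hxy.2]
    exact inE1_zero _
  rw [Point.add_some hxy, inE1_some]
  have hS := isSlope_slope (genFib A W) h₁.1 h₂.1 hxy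
  set ℓ : K := (genFib A W).slope a₁ a₂ b₁ b₂ with hℓ
  -- the slope is not integral
  have hlt : 1 < A.valuation ℓ := by
    rw [← not_le, A.valuation_le_one_iff]
    intro hmem
    have hS' : IsSlope W.toAffine a₁ a₂ b₁ b₂ ⟨ℓ, hmem⟩ :=
      IsSlope.of_map W.toAffine (f := algebraMap A K) Subtype.val_injective hS
    obtain ⟨r₁, r₂⟩ := hS'.map W.toAffine (IsLocalRing.residue A)
    obtain ⟨hx, hy⟩ := hred
    have hns := nonsingular_spFib hΔ h₂.1
    rw [hx, sub_self, mul_zero] at r₁
    have hb : res b₁ = res b₂ := sub_eq_zero.mp r₁.symm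
    rw [hb] at hy r₂
    have hY : (spFib A W).polynomialY.evalEval (res a₂) (res b₂) = 0 := by
      rw [← sub_negY_eq_polynomialY, sub_eq_zero]; exact hy
    rw [sub_eq_zero.mpr hy, mul_zero, hx, slopeNum_self_eq_neg_polynomialX] at r₂
    rcases hns.2 with h | h
    · exact h (neg_eq_zero.mp r₂.symm)
    · exact h hY
  -- hence `x(P + Q) = ℓ² + a₁ ℓ - a₂ - x₁ - x₂` is not integral
  have h1 : (1 : A.ValueGroup) ≤ A.valuation ℓ := hlt.le
  have hsq : A.valuation ℓ < A.valuation (ℓ ^ 2) := by
    rw [map_pow, sq]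
    calc A.valuation ℓ = A.valuation ℓ * 1 := (mul_one _).symm
      _ < A.valuation ℓ * A.valuation ℓ :=
        mul_lt_mul_of_pos_left hlt (lt_of_lt_of_le zero_lt_one h1)
  have ha₁ : A.valuation ((genFib A W).a₁ * ℓ) ≤ A.valuation ℓ := by
    exact vle_int_mul (A.valuation_le_one W.a₁) le_rfl
  have hrest : A.valuation ((genFib A W).a₁ * ℓ - (genFib A W).a₂ - a₁ - a₂) ≤ A.valuation ℓ := by
    refine (A.valuation.map_sub_le (A.valuation.map_sub_le (A.valuation.map_sub_le ha₁ ?_) ?_) ?_)
    · exact (A.valuation_le_one W.a₂).trans h1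
    · exact (A.valuation_le_one a₁).trans h1
    · exact (A.valuation_le_one a₂).trans h1
  have e : (genFib A W).addX (a₁ : K) (a₂ : K) ℓ =
      ℓ ^ 2 + ((genFib A W).a₁ * ℓ - (genFib A W).a₂ - a₁ - a₂) := by
    simp only [addX]; ring
  rw [e, A.valuation.map_add_eq_of_lt_left (lt_of_le_of_lt hrest hsq)]
  exact lt_trans hlt hsq

/-- **Claim 4**: adding a point of the kernel of reduction does not change the reduction. -/
theorem redFun_add_of_inE1 {P Q : (genFib A W).Point} (hP : InE1 A.valuation P)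
    (hQ : ¬ InE1 A.valuation Q) : redFun hΔ (P + Q) = redFun hΔ Q := by
  have hR : ¬ InE1 A.valuation (P + Q) := fun h => hQ (by
    have := (E1 A.valuation (genFib A W) (integralCoeffs_genFib A W)).sub_mem h hP
    rwa [add_sub_cancel_left] at this)
  have hnQ : ¬ InE1 A.valuation (-Q) := fun h => hQ (by simpa using h.neg)
  obtain ⟨a₁, b₁, h₁, e₁⟩ := (inE1_or_integral (P + Q)).resolve_left hR
  obtain ⟨a₂, b₂, h₂, e₂⟩ := (inE1_or_integral (-Q)).resolve_left hnQ
  have key : redFun hΔ (P + Q) + redFun hΔ (-Q) = 0 := by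
    rw [e₁, e₂]
    by_cases hred : res a₁ = res a₂ ∧ res b₁ = (spFib A W).negY (res a₂) (res b₂)
    · rw [redFun_some_of_mem, redFun_some_of_mem, Point.add_of_Y_eq hred.1 hred.2]
    · rw [← redFun_add_of_ne hΔ h₁ h₂ hred, ← e₁, ← e₂, add_neg_cancel_right,
        (redFun_eq_zero_iff hΔ P).mpr hP]
  rw [redFun_neg] at key
  exact add_neg_eq_zero.mp key

/-- the reduction map is additive. -/
theorem redFun_add (P Q : (genFib A W).Point) :
    redFun hΔ (P + Q) = redFun hΔ P + redFun hΔ Q := by
  rcases inE1_or_integral P with hP | ⟨a₁, b₁, h₁, rfl⟩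
  · by_cases hQ : InE1 A.valuation Q
    · have hPQ : InE1 A.valuation (P + Q) :=
        (E1 A.valuation (genFib A W) (integralCoeffs_genFib A W)).add_mem hP hQ
      rw [(redFun_eq_zero_iff hΔ _).mpr hPQ, (redFun_eq_zero_iff hΔ _).mpr hP,
        (redFun_eq_zero_iff hΔ _).mpr hQ, add_zero]
    · rw [redFun_add_of_inE1 hΔ hP hQ, (redFun_eq_zero_iff hΔ _).mpr hP, zero_add]
  · rcases inE1_or_integral Q with hQ | ⟨a₂, b₂, h₂, rfl⟩
    · rw [add_comm, redFun_add_of_inE1 hΔ hQ (not_inE1_some h₁),
        (redFun_eq_zero_iff hΔ _).mpr hQ, add_zero]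
    · by_cases hred : res a₁ = res a₂ ∧ res b₁ = (spFib A W).negY (res a₂) (res b₂)
      · rw [(redFun_eq_zero_iff hΔ _).mpr (inE1_add_of_eq hΔ h₁ h₂ hred), redFun_some_of_mem,
          redFun_some_of_mem, Point.add_of_Y_eq hred.1 hred.2]
      · exact redFun_add_of_ne hΔ h₁ h₂ hred

/-- **The reduction homomorphism.** -/
noncomputable def red : (genFib A W).Point →+ (spFib A W).Point where
  toFun := redFun hΔ
  map_zero' := rfl
  map_add' := redFun_add hΔ

theorem red_apply (P : (genFib A W).Point) : red hΔ P = redFun hΔ P := rfl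

theorem red_some_of_mem {a b : A} (h : (genFib A W).Nonsingular (a : K) (b : K)) :
    red hΔ (.some _ _ h) = .some (res a) (res b) (nonsingular_spFib hΔ h.1) :=
  redFun_some_of_mem hΔ h

theorem red_some_eq {x y : K} (h : (genFib A W).Nonsingular x y) {a b : A}
    (hx : x = a) (hy : y = b) :
    red hΔ (.some x y h) =
      .some (res a) (res b) (nonsingular_spFib hΔ (by rw [← hx, ← hy]; exact h.1)) :=
  redFun_some_eq hΔ h hx hy

/-- the kernel of the reduction homomorphism is `E₁`. -/
theorem red_eq_zero_iff (P : (genFib A W).Point) : red hΔ P = 0 ↔ InE1 A.valuation P :=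
  redFun_eq_zero_iff hΔ P

/-- **The reduction homomorphism is injective on torsion prime to the residue characteristic.** -/
theorem eq_zero_of_red_eq_zero {P : (genFib A W).Point} (hP : red hΔ P = 0) {n : ℕ}
    (hn : A.valuation (n : K) = 1) (h : n • P = 0) : P = 0 :=
  eq_zero_of_nsmul_eq_zero (integralCoeffs_genFib A W) ((red_eq_zero_iff hΔ P).mp hP) hn h

end Add

end Fermat.Agent.RedHom
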