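import Mathlib
import Fermat.Prelude.Def_FLTPrelim_Modularity
import Fermat.Prelude.Def_FLTPrelim_GaloisRep
import Fermat.Prelude.Def_EllipticCurve_FrobeniusTrace
import Fermat.Prelude.Def_FLTPrelim_Ramification
import Fermat.Agent.RedHom.RedHom
import Fermat.Agent.RedHom.PointCast
import Fermat.Agent.S05.Inertia

/-!
# The reduction homomorphism for an integral Weierstrass model at a place of `ℚ̄`

`W : WeierstrassCurve ℤ`, `A` a valuation subring of `ℚ̄` over a prime `r` of good reduction,
`κ` the residue field of `A` with any `ZMod r`-algebra structure.  We build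

  `redQ : ((W.map (Int.castRingHom ℚ))⁄ℚ̄).Point →+ ((W.reductionMod r)⁄κ).Point`,

show that it is injective on torsion prime to `r`, trivial on inertia and that it intertwines a
Frobenius element at `A` with the `r`-power Frobenius of `κ`.
-/

set_option autoImplicit false
set_option linter.unusedSectionVars false

open WeierstrassCurve WeierstrassCurve.Affine

namespace Fermat.Agent.RedHom

open Fermat.Agent.S05.Kernel

local notation "Qb" => AlgebraicClosure ℚ
local notation "GQ" => (AlgebraicClosure ℚ ≃ₐ[ℚ] AlgebraicClosure ℚ)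

variable (W : WeierstrassCurve ℤ) (A : ValuationSubring Qb)

/-- the generic fibre over `ℚ̄`, in the prelude's form. -/
noncomputable abbrev EQ : Affine Qb := (W.map (Int.castRingHom ℚ))⁄Qb

/-- the model over the valuation ring. -/
noncomputable def modelA : WeierstrassCurve A := W.map (Int.castRingHom A)

theorem EQ_eq : EQ W = genFib A (modelA W A) := by
  show (W.map (Int.castRingHom ℚ)).map (algebraMap ℚ Qb) =
    (W.map (Int.castRingHom A)).map (algebraMap A Qb)
  rw [WeierstrassCurve.map_map, WeierstrassCurve.map_map]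
  congr 1

section Residue

variable (r : ℕ) [Algebra (ZMod r) (IsLocalRing.ResidueField A)]

/-- the special fibre, as a base change of the reduction mod `r`. -/
noncomputable abbrev Er : Affine (IsLocalRing.ResidueField A) := (W.reductionMod r)⁄(IsLocalRing.ResidueField A)

theorem spFib_eq : spFib A (modelA W A) = Er W A r := by
  show (W.map (Int.castRingHom A)).map (IsLocalRing.residue A) =
    (W.map (Int.castRingHom (ZMod r))).map (algebraMap (ZMod r) (IsLocalRing.ResidueField A))
  rw [WeierstrassCurve.map_map, WeierstrassCurve.map_map]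
  congr 1
  exact Subsingleton.elim _ _

end Residue

variable {W A}

/-- good reduction: the special fibre has nonzero discriminant. -/
theorem spFib_Δ_ne_zero {r : ℕ} (hr : r.Prime) (hA : A.LiesOverPrime r)
    (hgood : W.IsGoodPrimeFor r) : (spFib A (modelA W A)).Δ ≠ 0 := by
  show ((W.map (Int.castRingHom A)).map (IsLocalRing.residue A)).Δ ≠ 0
  rw [WeierstrassCurve.map_Δ, WeierstrassCurve.map_Δ, res_ne_zero_iff]
  have : ((Int.castRingHom A W.Δ : A) : Qb) = ((W.Δ : ℤ) : Qb) := by simp
  rw [this]
  exact Fermat.Agent.S05.Inertia.valuation_intCast_eq_one hr hA hgood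

section RedQ

variable {r : ℕ} [Algebra (ZMod r) (IsLocalRing.ResidueField A)]
  [DecidableEq (IsLocalRing.ResidueField A)]

local notation "res" => IsLocalRing.residue A

/-- **the reduction homomorphism** at a place of `ℚ̄` of good reduction. -/
noncomputable def redQ (hΔ : (spFib A (modelA W A)).Δ ≠ 0) :
    (EQ W).Point →+ (Er W A r).Point :=
  (pointCast (spFib_eq W A r)).comp ((red hΔ).comp (pointCast (EQ_eq W A)))

variable (hΔ : (spFib A (modelA W A)).Δ ≠ 0)

theorem redQ_zero : redQ (r := r) hΔ 0 = 0 := map_zero _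

theorem equation_Er {x y : Qb} (h : (EQ W).Equation x y) (hx : x ∈ A) (hy : y ∈ A) :
    (Er W A r).Equation (res ⟨x, hx⟩) (res ⟨y, hy⟩) := by
  rw [← spFib_eq W A r]
  have h' : (genFib A (modelA W A)).Equation ((⟨x, hx⟩ : A) : Qb) ((⟨y, hy⟩ : A) : Qb) := by
    rw [← EQ_eq W A]; exact h
  exact equation_spFib h'

theorem y_mem_of_x_mem_EQ {x y : Qb} (h : (EQ W).Equation x y) (hx : x ∈ A) : y ∈ A := by
  have h' : (genFib A (modelA W A)).Equation x y := by
    rw [← EQ_eq W A]; exact h
  exact y_mem_of_x_mem h' hx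

include hΔ in
theorem nonsingular_Er {x y : Qb} (h : (EQ W).Equation x y) (hx : x ∈ A) (hy : y ∈ A) :
    (Er W A r).Nonsingular (res ⟨x, hx⟩) (res ⟨y, hy⟩) := by
  have hΔ' : (Er W A r).Δ ≠ 0 := by rw [← spFib_eq W A r]; exact hΔ
  exact (equation_iff_nonsingular_of_Δ_ne_zero hΔ').mp (equation_Er h hx hy)

theorem redQ_some_of_mem {x y : Qb} (h : (EQ W).Nonsingular x y) (hx : x ∈ A) (hy : y ∈ A) :
    redQ (r := r) hΔ (.some x y h) =
      .some (res ⟨x, hx⟩) (res ⟨y, hy⟩) (nonsingular_Er hΔ h.1 hx hy) := by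
  simp only [redQ, AddMonoidHom.comp_apply, pointCast_some]
  rw [red_some_eq hΔ _ (a := ⟨x, hx⟩) (b := ⟨y, hy⟩) rfl rfl, pointCast_some]

theorem redQ_some_of_notMem {x y : Qb} (h : (EQ W).Nonsingular x y) (hx : x ∉ A) :
    redQ (r := r) hΔ (.some x y h) = 0 := by
  simp only [redQ, AddMonoidHom.comp_apply, pointCast_some]
  rw [red_apply, redFun_some_of_notMem hΔ _ hx]
  rfl

/-- **`redQ` is injective on torsion prime to the residue characteristic.** -/
theorem eq_zero_of_redQ_eq_zero {P : (EQ W).Point} (hP : redQ (r := r) hΔ P = 0) {n : ℕ}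
    (hn : A.valuation (n : Qb) = 1) (h : n • P = 0) : P = 0 := by
  simp only [redQ, AddMonoidHom.comp_apply] at hP
  rw [pointCast_eq_zero_iff] at hP
  have h' : n • pointCast (EQ_eq W A) P = 0 := by rw [← map_nsmul, h, map_zero]
  exact (pointCast_eq_zero_iff _ _).mp (eq_zero_of_red_eq_zero hΔ hP hn h')

/-! ### Galois compatibility -/

open Fermat.Agent.S05.Inertia in
/-- the residue of `σ x` for `σ` in the decomposition group. -/
theorem res_apply_of_mem_decomposition {σ : GQ} (hσ : σ ∈ A.decompositionSubgroup ℚ) {x : Qb}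
    (hx : x ∈ A) :
    res ⟨σ x, (apply_mem_iff_of_mem_decomposition hσ x).mpr hx⟩ =
      (⟨σ, hσ⟩ : A.decompositionSubgroup ℚ) • res ⟨x, hx⟩ := rfl

theorem smul_some (σ : GQ) {x y : Qb} (h : (EQ W).Nonsingular x y) :
    ∃ h' : (EQ W).Nonsingular (σ x) (σ y), σ • (Point.some x y h : (EQ W).Point) = .some _ _ h' :=
  ⟨_, rfl⟩

open Fermat.Agent.S05.Inertia in
/-- **Frobenius compatibility**: `redQ` intertwines a Frobenius element at `A` with the `r`-power
Frobenius of the residue field. -/
theorem redQ_smul_frobenius [Fact r.Prime] {σ : GQ} (hσ : A.IsFrobeniusAt σ r)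
    (P : (EQ W).Point) :
    redQ (r := r) hΔ (σ • P) =
      Point.map (W' := W.reductionMod r)
        (FiniteField.frobeniusAlgHom (ZMod r) (IsLocalRing.ResidueField A)) (redQ hΔ P) := by
  obtain ⟨hσd, hfrob⟩ := hσ
  rcases P with _ | ⟨x, y, h⟩
  · have : σ • (Point.zero : (EQ W).Point) = 0 := rfl
    rw [this]
    have h0 : redQ (r := r) hΔ Point.zero = 0 := map_zero _
    rw [h0, map_zero, map_zero]
  · obtain ⟨h', e⟩ := smul_some (W := W) σ h
    rw [e]
    by_cases hx : x ∈ A
    · have hy : y ∈ A := y_mem_of_x_mem_EQ h.1 hx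
      have hx' : σ x ∈ A := (apply_mem_iff_of_mem_decomposition hσd x).mpr hx
      have hy' : σ y ∈ A := (apply_mem_iff_of_mem_decomposition hσd y).mpr hy
      rw [redQ_some_of_mem hΔ h' hx' hy', redQ_some_of_mem hΔ h hx hy, Point.map_some]
      simp only [Point.some.injEq]
      have hq : Fintype.card (ZMod r) = r := ZMod.card r
      refine ⟨?_, ?_⟩
      · rw [res_apply_of_mem_decomposition hσd hx, hfrob, FiniteField.coe_frobeniusAlgHom, hq]
      · rw [res_apply_of_mem_decomposition hσd hy, hfrob, FiniteField.coe_frobeniusAlgHom, hq]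
    · have hx' : σ x ∉ A := fun hmem => hx ((apply_mem_iff_of_mem_decomposition hσd x).mp hmem)
      rw [redQ_some_of_notMem hΔ h' hx', redQ_some_of_notMem hΔ h hx, map_zero]

open Fermat.Agent.S05.Inertia in
/-- **Inertia acts trivially after reduction.** -/
theorem redQ_smul_inertia {τ : GQ} (hτ : τ ∈ A.inertiaSubgroupIn ℚ) (P : (EQ W).Point) :
    redQ (r := r) hΔ (τ • P) = redQ hΔ P := by
  have hτd := mem_decompositionSubgroup hτ
  have hfix : ∀ u : IsLocalRing.ResidueField A, (⟨τ, hτd⟩ : A.decompositionSubgroup ℚ) • u = u := by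
    obtain ⟨g, hg, rfl⟩ := Subgroup.mem_map.mp hτ
    intro u
    have := MonoidHom.mem_ker.mp hg
    exact congrArg (fun e : RingAut (IsLocalRing.ResidueField A) => e u) this
  rcases P with _ | ⟨x, y, h⟩
  · have : τ • (Point.zero : (EQ W).Point) = 0 := rfl
    rw [this]; rfl
  · obtain ⟨h', e⟩ := smul_some (W := W) τ h
    rw [e]
    by_cases hx : x ∈ A
    · have hy : y ∈ A := y_mem_of_x_mem_EQ h.1 hx
      have hx' : τ x ∈ A := (apply_mem_iff_of_mem_decomposition hτd x).mpr hx
      have hy' : τ y ∈ A := (apply_mem_iff_of_mem_decomposition hτd y).mpr hy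
      rw [redQ_some_of_mem hΔ h' hx' hy', redQ_some_of_mem hΔ h hx hy]
      simp only [Point.some.injEq]
      exact ⟨by rw [res_apply_of_mem_decomposition hτd hx, hfix],
        by rw [res_apply_of_mem_decomposition hτd hy, hfix]⟩
    · have hx' : τ x ∉ A := fun hmem => hx ((apply_mem_iff_of_mem_decomposition hτd x).mp hmem)
      rw [redQ_some_of_notMem hΔ h' hx', redQ_some_of_notMem hΔ h hx]

end RedQ

end Fermat.Agent.RedHom
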