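import Mathlib
import Fermat.Agent.RedHom.RedQbar

/-!
# The Frobenius relation on the torsion of the generic fibre, from the relation in
characteristic `r`

`CharRel W` is the Frobenius relation `Frob² - a_r Frob + r = 0` on all points of the reduction of
`W` modulo a good prime `r` over every field extension of `ZMod r` (brick (a) of the S58
programme).  From it we deduce `ES/Q58/TraceCong20.RelQbar W` (stated here in unfolded form):
a Frobenius element `σ` at a good prime `r` satisfies `σ² - a_r σ + r = 0` on the torsion of
`W(ℚ̄)` of order prime to `r`.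
-/

set_option autoImplicit false
set_option linter.style.haveILetI false

open WeierstrassCurve WeierstrassCurve.Affine

namespace Fermat.Agent.RedHom

local notation "Qb" => AlgebraicClosure ℚ
local notation "GQ" => (AlgebraicClosure ℚ ≃ₐ[ℚ] AlgebraicClosure ℚ)

/-- **The Frobenius relation in characteristic `r`** (input). -/
def CharRel (W : WeierstrassCurve ℤ) : Prop :=
  ∀ (r : ℕ) [Fact r.Prime], W.IsGoodPrimeFor r →
    ∀ (L : Type) [Field L] [Algebra (ZMod r) L] [DecidableEq L]
      (Q : ((W.reductionMod r)⁄L).Point),
      Point.map (W' := W.reductionMod r) (FiniteField.frobeniusAlgHom (ZMod r) L)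
          (Point.map (W' := W.reductionMod r) (FiniteField.frobeniusAlgHom (ZMod r) L) Q)
        - W.apOfModel r •
          Point.map (W' := W.reductionMod r) (FiniteField.frobeniusAlgHom (ZMod r) L) Q
        + r • Q = 0

/-- the residue field of a valuation subring over `r` has characteristic `r`. -/
theorem charP_residueField {A : ValuationSubring Qb} {r : ℕ} (hr : r.Prime)
    (hA : A.LiesOverPrime r) : CharP (IsLocalRing.ResidueField A) r := by
  rw [CharP.charP_iff_prime_eq_zero hr]
  have h2 : (r : IsLocalRing.ResidueField A) = IsLocalRing.residue A (r : A) := by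
    rw [map_natCast]
  rw [h2, res_eq_zero_iff]
  have h3 : ((r : A) : Qb) = (r : Qb) := by simp
  rw [h3]
  exact Fermat.Agent.S05.Inertia.valuation_prime_lt_one hA

/-- **The Frobenius relation on the generic fibre** (`TraceCong20.RelQbar`, unfolded). -/
theorem relQbar_of_charRel {W : WeierstrassCurve ℤ} (hW : CharRel W) :
    ∀ r : ℕ, r.Prime → W.IsGoodPrimeFor r → ∀ m : ℕ, ¬ r ∣ m →
      ∀ (P : ValuationSubring Qb) (σ : GQ), P.LiesOverPrime r → P.IsFrobeniusAt σ r →
      ∀ Q : ((W.map (Int.castRingHom ℚ))⁄Qb).Point, m • Q = 0 →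
        σ • σ • Q - W.apOfModel r • (σ • Q) + r • Q = 0 := by
  intro r hr hgood m hrm A σ hA hσ Q hmQ
  haveI : Fact r.Prime := ⟨hr⟩
  haveI : CharP (IsLocalRing.ResidueField A) r := charP_residueField hr hA
  letI : Algebra (ZMod r) (IsLocalRing.ResidueField A) := ZMod.algebra _ r
  letI : DecidableEq (IsLocalRing.ResidueField A) := Classical.decEq _
  have hΔ := spFib_Δ_ne_zero hr hA hgood
  set T : (EQ W).Point := σ • σ • Q - W.apOfModel r • (σ • Q) + r • Q with hT
  -- `T` reduces to zero
  have hred : redQ (r := r) hΔ T = 0 := by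
    rw [hT, map_add, map_sub, map_zsmul, map_nsmul, redQ_smul_frobenius hΔ hσ,
      redQ_smul_frobenius hΔ hσ]
    exact hW r hgood (IsLocalRing.ResidueField A) (redQ hΔ Q)
  -- `T` is killed by `m`
  have hmT : m • T = 0 := by
    set g : (EQ W).Point →+ (EQ W).Point := DistribSMul.toAddMonoidHom (EQ W).Point σ with hg
    set f : (EQ W).Point →+ (EQ W).Point :=
      g.comp g - W.apOfModel r • g + r • AddMonoidHom.id _ with hf
    have hTf : T = f Q := rfl
    rw [hTf, ← map_nsmul, hmQ, map_zero]
  exact eq_zero_of_redQ_eq_zero hΔ hred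
    (Fermat.Agent.S05.Inertia.valuation_natCast_eq_one hr hA hrm) hmT

end Fermat.Agent.RedHom
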