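import Mathlib
import Fermat.Agent.RedHom.RelQbar
import Fermat.Agent.ES.Q58.TraceCong20

/-!
# `TraceCong20.RelQbar` and `ECFacts.trace` from the Frobenius relation in characteristic `r`
-/

set_option autoImplicit false

namespace Fermat.Agent.RedHom

open Fermat.Agent.ES.Q58

/-- `RelQbar W` of `ES/Q58/TraceCong20` from the relation in characteristic `r`. -/
theorem relQbar_of_charRel' {W : WeierstrassCurve ℤ} (hW : CharRel W) : TraceCong20.RelQbar W :=
  fun r hr hgood m _ hrm P σ hP hσ Q hQ => relQbar_of_charRel hW r hr hgood m hrm P σ hP hσ Q hQ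

/-- the field `trace` of `ECIface12.ECFacts W` from the relation in characteristic `r`. -/
theorem ecFacts_trace_of_charRel {W : WeierstrassCurve ℤ} (hW : CharRel W) (r : ℕ) (hr : r.Prime)
    (hgood : W.IsGoodPrimeFor r) (T : Finset ℕ) :
    ∃ lam : ℕ, lam.Prime ∧ lam ∉ T ∧ ECIface12.TraceCong W r lam :=
  TraceCong20.trace_of_rel W (relQbar_of_charRel' hW) r hr hgood T

end Fermat.Agent.RedHom
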